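import Fermat.Agent.SiegelPoints.Quartic
import Fermat.Agent.ThueMahler.Forms

/-!
# Classes and values of binary quartic forms

Integral binary quartic forms of given invariants, rational zeros allowed, fall into finitely many
classes, and each has finitely many coprime values supported on a finite set of primes.
-/

set_option autoImplicit false

noncomputable section

namespace FA.SiegelPoints

open Polynomial FA.Thue FA.ThueMahler

namespace QuarticForm

/-- The normal forms of the forms with a rational zero, moved to infinity. -/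
def isotropicBox (I J : ℤ) : Set QuarticForm :=
  {G | G.a = 0 ∧ G.invI = I ∧ G.invJ = J ∧ |G.b| ≤ |4 * I ^ 3 - J ^ 2| ∧ |G.c| ≤ 3 * |G.b| ∧
    G.b ≠ 0}

theorem isotropicBox_finite (I J : ℤ) : (isotropicBox I J).Finite := by
  set D := |4 * I ^ 3 - J ^ 2|
  refine Set.Finite.of_finite_image (f := fun G : QuarticForm => (G.b, G.c))
    (((Set.finite_Icc (-D) D).prod (Set.finite_Icc (-(3 * D)) (3 * D))).subset ?_) ?_
  · rintro _ ⟨G, ⟨-, -, -, hb, hc, -⟩, rfl⟩
    exact ⟨abs_le.1 hb, abs_le.1 (hc.trans (by linarith))⟩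
  · rintro G ⟨ha, hI, hJ, -, -, hb⟩ G' ⟨ha', hI', hJ', -, -, -⟩ h
    simp only [Prod.mk.injEq] at h
    obtain ⟨hbb, hcc⟩ := h
    simp only [invI, invJ, ha, ha', ← hbb, ← hcc] at hI hJ hI' hJ'
    have hdd : G.d = G'.d := mul_left_cancel₀ (mul_ne_zero (by norm_num : (3 : ℤ) ≠ 0) hb)
      (by linarith)
    rw [← hdd] at hJ'
    exact QuarticForm.ext (by rw [ha, ha']) hbb hcc hdd (mul_left_cancel₀
      (mul_ne_zero (by norm_num : (27 : ℤ) ≠ 0) (pow_ne_zero 2 hb)) (by linarith))

/-- A form with a rational zero is equivalent to a normal one. -/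
theorem exists_isotropic {F : QuarticForm} (hF : F.Nondegenerate) (han : ¬F.Anisotropic) :
    ∃ p q r s : ℤ, p * s - q * r = 1 ∧ F.act p q r s ∈ isotropicBox F.invI F.invJ := by
  simp only [Anisotropic, not_forall] at han
  obtain ⟨X, Y, h0, hne⟩ := han
  have hg : (Int.gcd X Y : ℤ) ≠ 0 := by
    intro h
    obtain ⟨hX, hY⟩ := Int.gcd_eq_zero_iff.1 (by exact_mod_cast h)
    exact hne ⟨hX, hY⟩
  set g : ℤ := ((Int.gcd X Y : ℕ) : ℤ) with hgdef
  obtain ⟨x, hx⟩ : g ∣ X := Int.gcd_dvd_left X Y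
  obtain ⟨y, hy⟩ : g ∣ Y := Int.gcd_dvd_right X Y
  have hxy : IsCoprime x y := by
    have h := Int.gcd_eq_gcd_ab X Y
    rw [← hgdef] at h
    refine ⟨Int.gcdA X Y, Int.gcdB X Y, mul_left_cancel₀ hg ?_⟩
    linear_combination -h - Int.gcdA X Y * hx - Int.gcdB X Y * hy
  have hzero : F.eval x y = 0 := by
    have e : F.eval X Y = g ^ 4 * F.eval x y := by
      rw [hx, hy]; simp only [eval, Int.cast_id]; ring
    rw [h0] at e
    exact (mul_eq_zero.1 e.symm).resolve_left (pow_ne_zero _ hg)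
  obtain ⟨u, v, huv⟩ := hxy
  set G := F.act x (-v) y u with hG
  have hdet : x * u - -v * y = 1 := by linear_combination huv
  have hGI : G.invI = F.invI := by rw [hG, invI_act, hdet, one_pow, one_mul]
  have hGJ : G.invJ = F.invJ := by rw [hG, invJ_act, hdet, one_pow, one_mul]
  have hGa : G.a = 0 := hzero
  set k := -(G.c / (3 * G.b)) with hk
  refine ⟨x, x * k + -v, y, y * k + u, by linear_combination hdet, ?_⟩
  have hact : F.act x (x * k + -v) y (y * k + u) = G.act 1 k 0 1 := by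
    rw [hG, act_act]; simp
  rw [hact]
  set H := G.act 1 k 0 1 with hH
  have hHI : H.invI = F.invI := by rw [hH, invI_act, hGI]; simp
  have hHJ : H.invJ = F.invJ := by rw [hH, invJ_act, hGJ]; simp
  have hHa : H.a = 0 := by rw [hH, act]; simp [eval, hGa]
  have hHb : H.b = G.b := by simp [hH, act, hGa]
  have hHc : H.c = G.c + 3 * G.b * k := by
    simp [hH, act, hGa]; ring
  set D := 4 * F.invI ^ 3 - F.invJ ^ 2 with hD
  have hdisc : D = H.b * (H.b * (27 * H.c ^ 2 * H.d ^ 2 - 108 * H.c ^ 3 * H.e -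
      108 * H.b * H.d ^ 3 + 486 * H.b * H.c * H.d * H.e - 729 * H.b ^ 2 * H.e ^ 2)) := by
    rw [hD, ← hHI, ← hHJ, invI, invJ, hHa]; ring
  have hb0 : H.b ≠ 0 := fun h => hF (by rw [← hD, hdisc, h, zero_mul])
  refine ⟨hHa, hHI, hHJ, Int.le_of_dvd (abs_pos.2 hF) ((abs_dvd_abs _ _).2 ⟨_, hdisc⟩), ?_, hb0⟩
  have hb : G.b ≠ 0 := hHb ▸ hb0
  have e : H.c = G.c % (3 * G.b) := by rw [hHc, Int.emod_def, hk]; ring
  have h1 := Int.emod_nonneg G.c (mul_ne_zero (three_ne_zero (α := ℤ)) hb)
  have h2 := Int.emod_lt G.c (mul_ne_zero (three_ne_zero (α := ℤ)) hb)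
  rw [e, hHb, abs_of_nonneg h1]
  rw [Int.natCast_natAbs, abs_mul, Nat.abs_ofNat] at h2
  exact h2.le

/-- **Forms of given invariants fall into finitely many classes.** -/
theorem exists_representatives {I J : ℤ} (h : 4 * I ^ 3 - J ^ 2 ≠ 0) :
    ∃ S : Set QuarticForm, S.Finite ∧ ∀ F : QuarticForm, F.invI = I → F.invJ = J →
      ∃ p q r s : ℤ, p * s - q * r = 1 ∧ F.act p q r s ∈ S := by
  refine ⟨box (5 * (14400 * (1 + 3 * |I| + |J|) ^ 2)) ∪ isotropicBox I J,
    (box_finite _).union (isotropicBox_finite I J), fun F hI hJ => ?_⟩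
  subst hI hJ
  by_cases han : F.Anisotropic
  · obtain ⟨p, q, r, s, hdet, hm⟩ := exists_small h han
    exact ⟨p, q, r, s, hdet, Or.inl hm⟩
  · obtain ⟨p, q, r, s, hdet, hm⟩ := exists_isotropic h han
    exact ⟨p, q, r, s, hdet, Or.inr hm⟩

/-- The Thue–Mahler theorem for a non-degenerate quartic form. -/
theorem finite_values (S : Finset ℕ) {G : QuarticForm} (hG : G.Nondegenerate) :
    {p : ℤ × ℤ | IsCoprime p.1 p.2 ∧ SUnit S (G.eval p.1 p.2)}.Finite := by
  obtain ⟨k, hk⟩ : ∃ k : ℤ, G.eval 1 k ≠ 0 := by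
    by_contra h
    push Not at h
    have h0 := h 0
    have h1 := h 1
    have hm := h (-1)
    have h2 := h 2
    have hm2 := h (-2)
    simp only [eval, Int.cast_id] at h0 h1 hm h2 hm2
    norm_num at h0 h1 hm h2 hm2
    have ha : G.a = 0 := h0
    have hb : G.b = 0 := by linarith
    have hc : G.c = 0 := by linarith
    exact hG (by simp [invI, invJ, ha, hb, hc])
  set F := G.act 1 0 k 1 with hF
  have ha : F.a ≠ 0 := hk
  have hFn : F.Nondegenerate := by
    rw [Nondegenerate, hF, invI_act, invJ_act]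
    simpa [Nondegenerate] using hG
  set f := F.poly with hf
  have hdeg : f.natDegree = 4 := natDegree_poly ha
  have hform : ∀ X Y, form f X Y = F.eval X Y := fun X Y => by
    rw [form, hdeg]
    simp only [hf, poly, Finset.sum_range_succ, Finset.sum_range_zero, coeff_add, coeff_C_mul,
      coeff_X_pow, coeff_X, coeff_C, eval, Int.cast_id]
    norm_num
    ring
  refine ((finite_coprime_values S (f := f) (by omega) (separable_poly hFn)).image
    fun p : ℤ × ℤ => (p.1, k * p.1 + p.2)).subset ?_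
  rintro ⟨X, Y⟩ ⟨hc, hS⟩
  refine ⟨(X, Y - k * X), ⟨?_, ?_⟩, by simp⟩
  · show IsCoprime X (Y - k * X)
    rw [show Y - k * X = Y + X * -k by ring]
    exact hc.add_mul_left_right _
  · show SUnit S (form f X (Y - k * X))
    rw [hform, hF, eval_act]
    simpa using hS

end QuarticForm

end FA.SiegelPoints

end
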