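import Fermat.Agent.Thue.CubicForms
import Mathlib.FieldTheory.Separable

/-!
# Integral binary quartic forms of given invariants

They fall into finitely many classes under `SL₂(ℤ)`. With a non-zero at infinity and roots `θ`
weight `‖X - θ Y‖²` by the inverse of the distances from `θ` to the other roots: the sum is a
positive quadratic form whose determinant the invariants bound. At a reduced point of it the form
has bounded values, so bounded coefficients.
-/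

set_option autoImplicit false

noncomputable section

namespace FA.SiegelPoints

open Polynomial
open scoped ComplexConjugate

/-- The integral binary quartic form `a X⁴ + b X³ Y + c X² Y² + d X Y³ + e Y⁴`. -/
@[ext] structure QuarticForm where
  a : ℤ
  b : ℤ
  c : ℤ
  d : ℤ
  e : ℤ

namespace QuarticForm

variable (F : QuarticForm) {R : Type*} [CommRing R]

/-- The value of the form. -/
def eval (X Y : R) : R :=
  F.a * X ^ 4 + F.b * X ^ 3 * Y + F.c * X ^ 2 * Y ^ 2 + F.d * X * Y ^ 3 + F.e * Y ^ 4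

/-- The Hessian covariant. -/
def hess (X Y : R) : R :=
  (3 * (F.b : R) ^ 2 - 8 * F.a * F.c) * X ^ 4 + 4 * ((F.b : R) * F.c - 6 * F.a * F.d) * X ^ 3 * Y +
    2 * (2 * (F.c : R) ^ 2 - 24 * F.a * F.e - 3 * F.b * F.d) * X ^ 2 * Y ^ 2 +
    4 * ((F.c : R) * F.d - 6 * F.b * F.e) * X * Y ^ 3 +
    (3 * (F.d : R) ^ 2 - 8 * F.c * F.e) * Y ^ 4

/-- The invariant of degree two. -/
def invI : ℤ := 12 * F.a * F.e - 3 * F.b * F.d + F.c ^ 2

/-- The invariant of degree three. -/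
def invJ : ℤ :=
  72 * F.a * F.c * F.e + 9 * F.b * F.c * F.d - 27 * F.a * F.d ^ 2 - 27 * F.e * F.b ^ 2 -
    2 * F.c ^ 3

/-- The form composed with a matrix. -/
def act (p q r s : ℤ) : QuarticForm where
  a := F.eval p r
  b := 4 * F.a * p ^ 3 * q + F.b * (p ^ 3 * s + 3 * p ^ 2 * q * r) +
    F.c * (2 * p ^ 2 * r * s + 2 * p * q * r ^ 2) + F.d * (3 * p * r ^ 2 * s + q * r ^ 3) +
    4 * F.e * r ^ 3 * s
  c := 6 * F.a * p ^ 2 * q ^ 2 + F.b * (3 * p ^ 2 * q * s + 3 * p * q ^ 2 * r) +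
    F.c * (p ^ 2 * s ^ 2 + 4 * p * q * r * s + q ^ 2 * r ^ 2) +
    F.d * (3 * p * r * s ^ 2 + 3 * q * r ^ 2 * s) + 6 * F.e * r ^ 2 * s ^ 2
  d := 4 * F.a * p * q ^ 3 + F.b * (q ^ 3 * r + 3 * p * q ^ 2 * s) +
    F.c * (2 * p * q * s ^ 2 + 2 * q ^ 2 * r * s) + F.d * (p * s ^ 3 + 3 * q * r * s ^ 2) +
    4 * F.e * r * s ^ 3
  e := F.eval q s

theorem eval_act (p q r s : ℤ) (X Y : R) :
    (F.act p q r s).eval X Y = F.eval ((p : R) * X + q * Y) ((r : R) * X + s * Y) := by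
  simp only [eval, act]
  push_cast
  ring

theorem hess_act (p q r s : ℤ) (X Y : R) :
    (F.act p q r s).hess X Y =
      ((p : R) * s - q * r) ^ 2 * F.hess ((p : R) * X + q * Y) ((r : R) * X + s * Y) := by
  simp only [hess, eval, act]
  push_cast
  ring

theorem invI_act (p q r s : ℤ) : (F.act p q r s).invI = (p * s - q * r) ^ 4 * F.invI := by
  simp only [invI, eval, act, Int.cast_id]
  ring

theorem invJ_act (p q r s : ℤ) : (F.act p q r s).invJ = (p * s - q * r) ^ 6 * F.invJ := by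
  simp only [invJ, eval, act, Int.cast_id]
  ring

theorem act_act (p q r s p' q' r' s' : ℤ) :
    (F.act p q r s).act p' q' r' s' =
      F.act (p * p' + q * r') (p * q' + q * s') (r * p' + s * r') (r * q' + s * s') := by
  ext <;> simp only [act, eval, Int.cast_id] <;> ring

theorem syzygy :
    27 * (F.b ^ 3 + 8 * F.a ^ 2 * F.d - 4 * F.a * F.b * F.c) ^ 2 =
      (3 * F.b ^ 2 - 8 * F.a * F.c) ^ 3 -
        48 * F.a ^ 2 * F.invI * (3 * F.b ^ 2 - 8 * F.a * F.c) - 64 * F.a ^ 3 * F.invJ := by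
  simp only [invI, invJ]
  ring

/-- The form has no repeated factor. -/
def Nondegenerate : Prop := 4 * F.invI ^ 3 - F.invJ ^ 2 ≠ 0

/-- The form has no non-trivial integral zero. -/
def Anisotropic : Prop :=
  ∀ X Y : ℤ, F.eval X Y = 0 → X = 0 ∧ Y = 0

/-- The polynomial of the form. -/
def poly : ℤ[X] := C F.a * X ^ 4 + C F.b * X ^ 3 + C F.c * X ^ 2 + C F.d * X + C F.e

variable {F}

theorem natDegree_poly (ha : F.a ≠ 0) : F.poly.natDegree = 4 := by
  rw [poly]; compute_degree!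

theorem eval_map_poly {K : Type*} [CommRing K] (z : K) :
    (F.poly.map (Int.castRingHom K)).eval z = F.eval z 1 := by
  simp [poly, eval]

theorem no_double_root {K : Type*} [Field K] [CharZero K] (hF : F.Nondegenerate) {z : K}
    (h1 : F.eval z 1 = 0)
    (h2 : 4 * (F.a : K) * z ^ 3 + 3 * F.b * z ^ 2 + 2 * F.c * z + F.d = 0) : False := by
  refine hF (Int.cast_injective (α := K) ?_)
  simp only [eval] at h1
  have hd : (F.d : K) = -(4 * (F.a : K) * z ^ 3 + 3 * F.b * z ^ 2 + 2 * F.c * z) := by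
    linear_combination h2
  have he : (F.e : K) =
      -((F.a : K) * z ^ 4 + F.b * z ^ 3 + F.c * z ^ 2 + F.d * z) := by linear_combination h1
  simp only [invI, invJ]
  push_cast
  rw [he, hd]
  ring

theorem separable_poly (hF : F.Nondegenerate) :
    (F.poly.map (Int.castRingHom ℚ)).Separable := by
  rw [← separable_map (algebraMap ℚ ℂ), Polynomial.map_map,
    Subsingleton.elim ((algebraMap ℚ ℂ).comp (Int.castRingHom ℚ)) (Int.castRingHom ℂ),
    separable_def, isCoprime_iff_aeval_ne_zero_of_isAlgClosed (k := ℂ) (K := ℂ)]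
  intro z
  by_contra hz
  simp only [not_or, not_not] at hz
  obtain ⟨h1, h2⟩ := hz
  simp [poly] at h1 h2
  refine no_double_root hF (z := z) ?_ ?_
  · simp only [eval]; linear_combination h1
  · linear_combination h2

/-- The roots of a form with `a ≠ 0`, permuted by conjugation, and Vieta's formulas. -/
theorem exists_roots (hF : F.Nondegenerate) (ha : F.a ≠ 0) :
    ∃ θ : Fin 4 → ℂ, Function.Injective θ ∧
      (∃ σ : Equiv.Perm (Fin 4), ∀ i, θ (σ i) = conj (θ i)) ∧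
      (F.b : ℂ) = -(F.a * (θ 0 + θ 1 + θ 2 + θ 3)) ∧
      (F.c : ℂ) = F.a * (θ 0 * θ 1 + θ 0 * θ 2 + θ 0 * θ 3 + θ 1 * θ 2 + θ 1 * θ 3 + θ 2 * θ 3) ∧
      (F.d : ℂ) = -(F.a * (θ 0 * θ 1 * θ 2 + θ 0 * θ 1 * θ 3 + θ 0 * θ 2 * θ 3 +
        θ 1 * θ 2 * θ 3)) ∧
      (F.e : ℂ) = F.a * (θ 0 * θ 1 * θ 2 * θ 3) := by
  classical
  set g := F.poly.map (Int.castRingHom ℂ) with hg
  have hgsep : g.Separable := by
    have := (separable_poly hF).map (f := algebraMap ℚ ℂ)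
    rwa [Polynomial.map_map,
      Subsingleton.elim ((algebraMap ℚ ℂ).comp (Int.castRingHom ℚ)) (Int.castRingHom ℂ)] at this
  have hgdeg : g.natDegree = 4 := by
    rw [hg, natDegree_map_eq_of_injective Int.cast_injective, natDegree_poly ha]
  have hg0 : g ≠ 0 := fun h => by simp [h] at hgdeg
  have hlc : g.leadingCoeff = (F.a : ℂ) := by
    rw [leadingCoeff, hgdeg, hg, coeff_map]
    simp only [poly, coeff_add, coeff_C_mul, coeff_X_pow, coeff_X, coeff_C]
    norm_num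
  have hsp := IsAlgClosed.splits g
  have hnd : g.roots.Nodup := nodup_roots hgsep
  have hcard : g.roots.toFinset.card = 4 := by
    rw [Multiset.toFinset_card_of_nodup hnd, ← hgdeg]
    exact (hsp.natDegree_eq_card_roots).symm
  set eqv := (Finset.equivFinOfCardEq hcard).symm with heqv
  set θ : Fin 4 → ℂ := fun i => (eqv i : ℂ) with hθ
  have hinj : Function.Injective θ := Subtype.val_injective.comp eqv.injective
  have hmem : ∀ z, g.eval z = 0 → ∃ i, θ i = z := fun z hz =>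
    ⟨eqv.symm ⟨z, Multiset.mem_toFinset.2 ((mem_roots hg0).2 hz)⟩, by simp [hθ]⟩
  have hroot : ∀ i, g.eval (θ i) = 0 := fun i =>
    (mem_roots hg0).1 (Multiset.mem_toFinset.1 (eqv i).2)
  have hconj : ∀ i, ∃ j, θ j = conj (θ i) := fun i => hmem _ (by
    have h := congrArg conj (hroot i)
    rw [hg, eval_map_poly] at h ⊢
    simpa [eval] using h)
  choose σ hσ using hconj
  have hinv : Function.Involutive σ := fun i => hinj (by rw [hσ, hσ, Complex.conj_conj])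
  have himg : Finset.univ.image θ = g.roots.toFinset := by
    ext z
    constructor
    · simp only [Finset.mem_image, Finset.mem_univ, true_and]
      rintro ⟨i, rfl⟩
      exact (eqv i).2
    · intro hz
      exact Finset.mem_image.2 ⟨eqv.symm ⟨z, hz⟩, Finset.mem_univ _, by simp [hθ]⟩
  have hprod : g = C (F.a : ℂ) * ∏ i, (X - C (θ i)) := by
    conv_lhs => rw [hsp.eq_prod_roots, hlc]
    rw [← Finset.prod_image (f := fun z => X - C z) (fun a _ b _ h => hinj h), himg,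
      Finset.prod_eq_multiset_prod, Multiset.toFinset_val, hnd.dedup]
  have hev : ∀ t : ℂ, F.eval t 1 = F.a * ((t - θ 0) * (t - θ 1) * (t - θ 2) * (t - θ 3)) := by
    intro t
    rw [← eval_map_poly, ← hg, hprod]
    simp [Fin.prod_univ_four]
  refine ⟨θ, hinj, ⟨hinv.toPerm, hσ⟩, ?_, ?_, ?_, ?_⟩
  all_goals
    have h0 := hev 0
    have h1 := hev 1
    have hm := hev (-1)
    have h2 := hev 2
    simp only [eval] at h0 h1 hm h2
  · linear_combination (h2 + 3 * h0 - 3 * h1 - hm) / 6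
  · linear_combination (h1 + hm - 2 * h0) / 2
  · linear_combination (h1 - hm) / 2 - (h2 + 3 * h0 - 3 * h1 - hm) / 6
  · linear_combination h0

/-- Values at five points bound the coefficients. -/
theorem abs_coeff_le {N : ℤ} (h₀ : |F.eval (0 : ℤ) 1| ≤ N) (h₁ : |F.eval (1 : ℤ) 1| ≤ N)
    (hm : |F.eval (-1 : ℤ) 1| ≤ N) (h₂ : |F.eval (2 : ℤ) 1| ≤ N)
    (hinf : |F.eval (1 : ℤ) 0| ≤ N) :
    |F.a| ≤ 5 * N ∧ |F.b| ≤ 5 * N ∧ |F.c| ≤ 5 * N ∧ |F.d| ≤ 5 * N ∧ |F.e| ≤ 5 * N := by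
  simp only [eval, Int.cast_id] at h₀ h₁ hm h₂ hinf
  norm_num at h₀ h₁ hm h₂ hinf
  simp only [abs_le] at *
  omega

/-- The forms with bounded coefficients. -/
def box (N : ℤ) : Set QuarticForm :=
  {G | |G.a| ≤ N ∧ |G.b| ≤ N ∧ |G.c| ≤ N ∧ |G.d| ≤ N ∧ |G.e| ≤ N}

theorem box_finite (N : ℤ) : (box N).Finite := by
  have hfin := ((Set.finite_Icc (-N) N).prod ((Set.finite_Icc (-N) N).prod
    ((Set.finite_Icc (-N) N).prod ((Set.finite_Icc (-N) N).prod (Set.finite_Icc (-N) N)))))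
  refine (hfin.image fun t =>
    QuarticForm.mk t.1 t.2.1 t.2.2.1 t.2.2.2.1 t.2.2.2.2).subset fun G hG => ?_
  obtain ⟨ha, hb, hc, hd, he⟩ := hG
  exact ⟨(G.a, G.b, G.c, G.d, G.e),
    ⟨abs_le.1 ha, abs_le.1 hb, abs_le.1 hc, abs_le.1 hd, abs_le.1 he⟩, rfl⟩

/-- The invariants bound the products of complementary differences of roots. -/
theorem abs_mul_sub_le {a : ℤ} {t₀ t₁ t₂ t₃ : ℂ} {I J : ℤ}
    (hI : (I : ℂ) = (a : ℂ) ^ 2 * (12 * (t₀ * t₁ * t₂ * t₃) -
      3 * ((t₀ + t₁ + t₂ + t₃) * (t₀ * t₁ * t₂ + t₀ * t₁ * t₃ + t₀ * t₂ * t₃ + t₁ * t₂ * t₃)) +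
      (t₀ * t₁ + t₀ * t₂ + t₀ * t₃ + t₁ * t₂ + t₁ * t₃ + t₂ * t₃) ^ 2))
    (hJ : (J : ℂ) = (a : ℂ) ^ 3 * (72 * (t₀ * t₁ + t₀ * t₂ + t₀ * t₃ + t₁ * t₂ + t₁ * t₃ +
        t₂ * t₃) * (t₀ * t₁ * t₂ * t₃) +
      9 * (t₀ + t₁ + t₂ + t₃) * (t₀ * t₁ + t₀ * t₂ + t₀ * t₃ + t₁ * t₂ + t₁ * t₃ + t₂ * t₃) *
        (t₀ * t₁ * t₂ + t₀ * t₁ * t₃ + t₀ * t₂ * t₃ + t₁ * t₂ * t₃) -
      27 * (t₀ * t₁ * t₂ + t₀ * t₁ * t₃ + t₀ * t₂ * t₃ + t₁ * t₂ * t₃) ^ 2 -
      27 * (t₀ * t₁ * t₂ * t₃) * (t₀ + t₁ + t₂ + t₃) ^ 2 -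
      2 * (t₀ * t₁ + t₀ * t₂ + t₀ * t₃ + t₁ * t₂ + t₁ * t₃ + t₂ * t₃) ^ 3)) :
    |(a : ℝ)| * (‖t₀ - t₁‖ * ‖t₂ - t₃‖) ≤ 1 + 3 * |(I : ℝ)| + |(J : ℝ)| ∧
    |(a : ℝ)| * (‖t₀ - t₂‖ * ‖t₁ - t₃‖) ≤ 1 + 3 * |(I : ℝ)| + |(J : ℝ)| ∧
    |(a : ℝ)| * (‖t₀ - t₃‖ * ‖t₁ - t₂‖) ≤ 1 + 3 * |(I : ℝ)| + |(J : ℝ)| := by
  set M := 1 + 3 * |(I : ℝ)| + |(J : ℝ)| with hM
  set σ₂ := t₀ * t₁ + t₀ * t₂ + t₀ * t₃ + t₁ * t₂ + t₁ * t₃ + t₂ * t₃ with hσ₂
  have hbound : ∀ φ : ℂ, φ ^ 3 - 3 * (I : ℂ) * φ + J = 0 → ‖φ‖ ≤ M := by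
    intro φ h
    by_contra hlt
    rw [not_le] at hlt
    have hI0 := abs_nonneg (I : ℝ)
    have hJ0 := abs_nonneg (J : ℝ)
    have h1 : 1 ≤ ‖φ‖ := by linarith
    have h3 : ‖φ‖ ^ 3 ≤ 3 * |(I : ℝ)| * ‖φ‖ + |(J : ℝ)| := by
      rw [← norm_pow, show φ ^ 3 = 3 * (I : ℂ) * φ - J by linear_combination h]
      refine (norm_sub_le _ _).trans ?_
      simp
    nlinarith [mul_le_mul_of_nonneg_left h1 hJ0, mul_le_mul_of_nonneg_right hlt.le (norm_nonneg φ),
      mul_le_mul_of_nonneg_left h1 (mul_nonneg (norm_nonneg φ) (norm_nonneg φ))]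
  have hA := hbound ((a : ℂ) * (3 * (t₀ * t₁ + t₂ * t₃) - σ₂)) (by rw [hI, hJ, hσ₂]; ring)
  have hB := hbound ((a : ℂ) * (3 * (t₀ * t₂ + t₁ * t₃) - σ₂)) (by rw [hI, hJ, hσ₂]; ring)
  have hC := hbound ((a : ℂ) * (3 * (t₀ * t₃ + t₁ * t₂) - σ₂)) (by rw [hI, hJ, hσ₂]; ring)
  have key : ∀ {φ ψ x y : ℂ}, ‖φ‖ ≤ M → ‖ψ‖ ≤ M → φ - ψ = 3 * ((a : ℂ) * (x * y)) →
      |(a : ℝ)| * (‖x‖ * ‖y‖) ≤ M := by
    intro φ ψ x y hφ hψ h
    have h' := norm_sub_le φ ψ
    rw [h, norm_mul, norm_mul, norm_mul, Complex.norm_intCast, Complex.norm_ofNat] at h'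
    linarith [norm_nonneg φ]
  exact ⟨key hB hC (by ring), key hA hC (by ring), key hA hB (by ring)⟩

theorem normSq_add_le (x y : ℝ) (α β : ℂ) :
    Complex.normSq ((x : ℂ) * α + y * β) ≤
      (x ^ 2 + y ^ 2) * (Complex.normSq α + Complex.normSq β) := by
  simp [Complex.normSq_apply]
  linarith [sq_nonneg (x * β.re - y * α.re), sq_nonneg (x * β.im - y * α.im)]

/-- A form with a non-zero at infinity and no rational zero is equivalent to a bounded one. -/
theorem exists_small (hF : F.Nondegenerate) (han : F.Anisotropic) :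
    ∃ p q r s : ℤ, p * s - q * r = 1 ∧ F.act p q r s ∈
      box (5 * (14400 * (1 + 3 * |F.invI| + |F.invJ|) ^ 2)) := by
  have ha : F.a ≠ 0 := fun ha => one_ne_zero (han 1 0 (by simp [eval, ha])).1
  obtain ⟨θ, hinj, ⟨σ, hσ⟩, hb, hc, hd, he⟩ := exists_roots hF ha
  set M : ℝ := 1 + 3 * |(F.invI : ℝ)| + |(F.invJ : ℝ)| with hMdef
  have hM1 : 1 ≤ M := by rw [hMdef]; linarith [abs_nonneg (F.invI : ℝ), abs_nonneg (F.invJ : ℝ)]
  obtain ⟨hM01, hM02, hM03⟩ := abs_mul_sub_le (a := F.a) (t₀ := θ 0) (t₁ := θ 1) (t₂ := θ 2)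
    (t₃ := θ 3) (I := F.invI) (J := F.invJ)
    (by simp only [invI]; push_cast; rw [hb, hc, hd, he]; ring)
    (by simp only [invJ]; push_cast; rw [hb, hc, hd, he]; ring)
  rw [← hMdef] at hM01 hM02 hM03
  set aR : ℝ := |(F.a : ℝ)| with haR
  have haR0 : 0 < aR := abs_pos.2 (Int.cast_ne_zero.2 ha)
  -- the products of distances and the weights
  set P : Fin 4 → ℝ := fun i => ∏ j, if j = i then 1 else ‖θ i - θ j‖ with hPdef
  have hne : ∀ {i j : Fin 4}, i ≠ j → ‖θ i - θ j‖ ≠ 0 := fun h =>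
    norm_ne_zero_iff.2 (sub_ne_zero.2 fun e => h (hinj e))
  have hPpos : ∀ i, 0 < P i := fun i => Finset.prod_pos fun j _ => by
    split_ifs with h
    · exact one_pos
    · exact (norm_nonneg _).lt_of_ne' (hne (Ne.symm h))
  have hPσ : ∀ i, P (σ i) = P i := fun i => by
    simp only [hPdef]
    rw [← Equiv.prod_comp σ]
    refine Finset.prod_congr rfl fun j _ => ?_
    simp only [σ.injective.eq_iff, hσ, ← map_sub, Complex.norm_conj]
  set K : ℝ := Real.sqrt (aR * Real.sqrt (∏ i, P i)) with hK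
  have hK0 : 0 < K := Real.sqrt_pos.2 (mul_pos haR0 (Real.sqrt_pos.2 (Finset.prod_pos
    fun i _ => hPpos i)))
  set w : Fin 4 → ℝ := fun i => K / P i with hw
  have hw0 : ∀ i, 0 < w i := fun i => div_pos hK0 (hPpos i)
  obtain ⟨n01, n02, n03, n12, n13, n23, e01, e02, e03, e12, e13, e23⟩ :
      ∃ n01 n02 n03 n12 n13 n23 : ℝ,
      n01 = ‖θ 0 - θ 1‖ ∧ n02 = ‖θ 0 - θ 2‖ ∧ n03 = ‖θ 0 - θ 3‖ ∧ n12 = ‖θ 1 - θ 2‖ ∧
      n13 = ‖θ 1 - θ 3‖ ∧ n23 = ‖θ 2 - θ 3‖ := ⟨_, _, _, _, _, _, rfl, rfl, rfl, rfl, rfl, rfl⟩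
  rw [← e01, ← e23] at hM01
  rw [← e02, ← e13] at hM02
  rw [← e03, ← e12] at hM03
  have p01 : 0 < n01 := e01 ▸ (norm_nonneg _).lt_of_ne' (hne (by decide))
  have p02 : 0 < n02 := e02 ▸ (norm_nonneg _).lt_of_ne' (hne (by decide))
  have p03 : 0 < n03 := e03 ▸ (norm_nonneg _).lt_of_ne' (hne (by decide))
  have p12 : 0 < n12 := e12 ▸ (norm_nonneg _).lt_of_ne' (hne (by decide))
  have p13 : 0 < n13 := e13 ▸ (norm_nonneg _).lt_of_ne' (hne (by decide))
  have p23 : 0 < n23 := e23 ▸ (norm_nonneg _).lt_of_ne' (hne (by decide))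
  have hP0 : P 0 = n01 * n02 * n03 := by simp [hPdef, Fin.prod_univ_four, e01, e02, e03]
  have hP1 : P 1 = n01 * n12 * n13 := by
    simp [hPdef, Fin.prod_univ_four, e01, e12, e13, norm_sub_rev (θ 1) (θ 0)]
  have hP2 : P 2 = n02 * n12 * n23 := by
    simp [hPdef, Fin.prod_univ_four, e02, e12, e23, norm_sub_rev (θ 2) (θ 0),
      norm_sub_rev (θ 2) (θ 1)]
  have hP3 : P 3 = n03 * n13 * n23 := by
    simp [hPdef, Fin.prod_univ_four, e03, e13, e23, norm_sub_rev (θ 3) (θ 0),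
      norm_sub_rev (θ 3) (θ 1), norm_sub_rev (θ 3) (θ 2)]
  have hPi : ∏ i, P i = (n01 * n02 * n03 * n12 * n13 * n23) ^ 2 := by
    rw [Fin.prod_univ_four, hP0, hP1, hP2, hP3]; ring
  have hK2 : K ^ 2 = aR * (n01 * n02 * n03 * n12 * n13 * n23) := by
    rw [hK, Real.sq_sqrt (by positivity), hPi, Real.sqrt_sq (by positivity)]
  have hwprod : ∏ i, w i = aR ^ 2 := by
    simp only [hw, Finset.prod_div_distrib, Finset.prod_const, Finset.card_univ, Fintype.card_fin]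
    rw [hPi, show K ^ 4 = (K ^ 2) ^ 2 by ring, hK2, mul_pow]
    field_simp
  have hpair : w 0 * w 1 * n01 ^ 2 = aR * (n01 * n23) ∧ w 2 * w 3 * n23 ^ 2 = aR * (n01 * n23) ∧
      w 0 * w 2 * n02 ^ 2 = aR * (n02 * n13) ∧ w 1 * w 3 * n13 ^ 2 = aR * (n02 * n13) ∧
      w 0 * w 3 * n03 ^ 2 = aR * (n03 * n12) ∧ w 1 * w 2 * n12 ^ 2 = aR * (n03 * n12) := by
    simp only [hw, hP0, hP1, hP2, hP3, div_mul_div_comm, ← sq K, hK2]
    refine ⟨?_, ?_, ?_, ?_, ?_, ?_⟩ <;> field_simp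
  obtain ⟨q01, q23, q02, q13, q03, q12⟩ := hpair
  -- the quadratic covariant
  set A : ℝ := ∑ i, w i with hA
  set B : ℝ := ∑ i, w i * (θ i).re with hB
  set Cq : ℝ := ∑ i, w i * Complex.normSq (θ i) with hCq
  set Dt : ℝ := A * Cq - B ^ 2 with hDt
  have hA0 : 0 < A := Finset.sum_pos (fun i _ => hw0 i) Finset.univ_nonempty
  have him0 : ∑ i, w i * (θ i).im = 0 := by
    have h : ∑ i, w i * (θ i).im = -∑ i, w i * (θ i).im := by
      conv_lhs => rw [← Equiv.sum_comp σ]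
      rw [← Finset.sum_neg_distrib]
      refine Finset.sum_congr rfl fun i _ => ?_
      simp [hw, hPσ, hσ]
    linarith
  have hDteq : Dt = w 0 * w 1 * n01 ^ 2 + w 2 * w 3 * n23 ^ 2 + w 0 * w 2 * n02 ^ 2 +
      w 1 * w 3 * n13 ^ 2 + w 0 * w 3 * n03 ^ 2 + w 1 * w 2 * n12 ^ 2 := by
    simp only [Fin.sum_univ_four] at him0
    rw [hDt, hA, hB, hCq, e01, e02, e03, e12, e13, e23]
    simp only [Fin.sum_univ_four, Complex.sq_norm, Complex.normSq_apply, Complex.sub_re,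
      Complex.sub_im]
    linear_combination (w 0 * (θ 0).im + w 1 * (θ 1).im + w 2 * (θ 2).im + w 3 * (θ 3).im) * him0
  have hDtM : Dt ≤ 6 * M := by rw [hDteq, q01, q23, q02, q13, q03, q12]; linarith
  have hDt0 : 0 < Dt := by rw [hDteq, q01, q23, q02, q13, q03, q12]; positivity
  have hsq : Real.sqrt Dt ^ 2 = Dt := Real.sq_sqrt hDt0.le
  set z : ℂ := ⟨B / A, Real.sqrt Dt / A⟩ with hz
  have hQ : ∀ x y : ℝ, ∑ i, w i * Complex.normSq ((x : ℂ) - θ i * y) =
      A * Complex.normSq ((x : ℂ) - z * y) := by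
    intro x y
    have e1 : ∀ t : ℂ, Complex.normSq ((x : ℂ) - t * y) =
        x ^ 2 - 2 * x * y * t.re + y ^ 2 * Complex.normSq t := fun t => by
      simp [Complex.normSq_apply]; ring
    simp only [e1]
    rw [Complex.normSq_apply z, hz]
    simp only [mul_add, mul_sub, Finset.sum_add_distrib, Finset.sum_sub_distrib,
      mul_left_comm (w _), ← Finset.mul_sum, ← Finset.sum_mul, ← hA, ← hB, ← hCq]
    field_simp
    linear_combination y ^ 2 * hDt - y ^ 2 * hsq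
  have hzim : 0 < z.im := div_pos (Real.sqrt_pos.2 hDt0) hA0
  obtain ⟨p, q, r, s, hdet, τ, lam, him, hnorm, hre, h1, h2⟩ := FA.Thue.exists_reduce z hzim
  refine ⟨p, q, r, s, hdet, ?_⟩
  have hdetC : (p : ℂ) * s - q * r = 1 := by exact_mod_cast hdet
  have e1 : ((p : ℂ) - z * r) * lam = 1 := by linear_combination hdetC + r * h1 - p * h2
  have e2 : ((q : ℂ) - z * s) * lam = -τ := by
    linear_combination -τ * hdetC - q * h2 + s * h1
  have hlam : 0 < Complex.normSq lam := Complex.normSq_pos.2 (fun h => by simp [h] at e1)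
  set A' : ℝ := A * Complex.normSq ((p : ℂ) - z * r) with hA'
  set C' : ℝ := A * Complex.normSq ((q : ℂ) - z * s) with hC'
  have hN1 : Complex.normSq ((p : ℂ) - z * r) * Complex.normSq lam = 1 := by
    rw [← map_mul, e1, map_one]
  have hC'eq : C' = A' * Complex.normSq τ := by
    have h := congrArg Complex.normSq e2
    rw [map_mul, Complex.normSq_neg] at h
    rw [hA', hC']
    refine mul_right_cancel₀ hlam.ne' ?_
    linear_combination A * h - A * Complex.normSq τ * hN1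
  have hzv : z.im * Complex.normSq lam = τ.im := by
    have a1 := congrArg Complex.re h1
    have a2 := congrArg Complex.im h1
    have a3 := congrArg Complex.re h2
    have a4 := congrArg Complex.im h2
    simp at a1 a2 a3 a4
    have hdetR : (p : ℝ) * s - q * r = 1 := by exact_mod_cast hdet
    rw [Complex.normSq_apply, ← a3, ← a4]
    linear_combination τ.im * hdetR - ((r : ℝ) * τ.re + s) * a2 + ((r : ℝ) * τ.im) * a1 +
      ((r : ℝ) * τ.re * z.re + (s : ℝ) * z.re) * a4 - ((r : ℝ) * τ.im * z.re) * a3 +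
      (((r : ℝ) * τ.re + s) * z.im) * a3 + ((r : ℝ) * τ.im * z.im) * a4
  have hA'v : A' * τ.im = Real.sqrt Dt := by
    rw [← hzv, hA', show A * Complex.normSq ((p : ℂ) - z * r) * (z.im * Complex.normSq lam) =
      A * z.im * (Complex.normSq ((p : ℂ) - z * r) * Complex.normSq lam) by ring, hN1, mul_one, hz]
    field_simp
  set G := F.act p q r s with hG
  have hGeval : ∀ x y : ℤ, (G.eval x y : ℂ) = F.a * ∏ i,
      (((x : ℂ) * p + y * q) - θ i * ((x : ℂ) * r + y * s)) := by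
    intro x y
    have hFev : ∀ X Y : ℂ, F.eval X Y = F.a * ∏ i, (X - θ i * Y) := fun X Y => by
      simp only [eval, Fin.prod_univ_four]; rw [hb, hc, hd, he]; ring
    rw [hG, eval_act, hFev]
    refine congrArg _ (Finset.prod_congr rfl fun i _ => ?_)
    ring
  have hbound : ∀ x y : ℤ, ((G.eval x y : ℤ) : ℝ) ^ 2 ≤
      ((x : ℝ) ^ 2 + (y : ℝ) ^ 2) ^ 4 * (A' + C') ^ 4 := by
    intro x y
    have hc' : ((G.eval x y : ℤ) : ℂ) = G.eval (x : ℂ) (y : ℂ) := by simp [eval]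
    have h := hGeval x y
    rw [← hc'] at h
    have h' := congrArg Complex.normSq h
    rw [map_mul, map_prod, Complex.normSq_intCast, Complex.normSq_intCast] at h'
    rw [sq, h', show (F.a : ℝ) * F.a = aR ^ 2 by rw [haR, sq_abs, sq], ← hwprod,
      ← Finset.prod_mul_distrib, ← mul_pow]
    have e : (((x : ℝ) ^ 2 + (y : ℝ) ^ 2) * (A' + C')) ^ 4 =
        ∏ _i : Fin 4, ((x : ℝ) ^ 2 + (y : ℝ) ^ 2) * (A' + C') := by simp
    rw [e]
    refine Finset.prod_le_prod (fun i _ => mul_nonneg (hw0 i).le (Complex.normSq_nonneg _))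
      fun i _ => ?_
    have hα : w i * Complex.normSq ((p : ℂ) - θ i * r) ≤ A' := by
      rw [hA']
      have := hQ (p : ℝ) (r : ℝ)
      push_cast at this
      rw [← this]
      exact Finset.single_le_sum (f := fun i => w i * Complex.normSq ((p : ℂ) - θ i * r))
        (fun i _ => mul_nonneg (hw0 i).le (Complex.normSq_nonneg _)) (Finset.mem_univ i)
    have hβ : w i * Complex.normSq ((q : ℂ) - θ i * s) ≤ C' := by
      rw [hC']
      have := hQ (q : ℝ) (s : ℝ)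
      push_cast at this
      rw [← this]
      exact Finset.single_le_sum (f := fun i => w i * Complex.normSq ((q : ℂ) - θ i * s))
        (fun i _ => mul_nonneg (hw0 i).le (Complex.normSq_nonneg _)) (Finset.mem_univ i)
    set α := (p : ℂ) - θ i * r
    set β := (q : ℂ) - θ i * s
    rw [show ((x : ℂ) * p + y * q) - θ i * ((x : ℂ) * r + y * s) = (x : ℂ) * α + y * β by ring]
    have hCS := normSq_add_le (x : ℝ) (y : ℝ) α β
    push_cast at hCS
    calc w i * Complex.normSq ((x : ℂ) * α + y * β)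
        ≤ w i * (((x : ℝ) ^ 2 + (y : ℝ) ^ 2) * (Complex.normSq α + Complex.normSq β)) :=
          mul_le_mul_of_nonneg_left hCS (hw0 i).le
      _ = ((x : ℝ) ^ 2 + (y : ℝ) ^ 2) *
            (w i * Complex.normSq α + w i * Complex.normSq β) := by ring
      _ ≤ _ := mul_le_mul_of_nonneg_left (add_le_add hα hβ) (by positivity)
  have hA'0 : 0 ≤ A' := mul_nonneg hA0.le (Complex.normSq_nonneg _)
  have hA'1 : 1 ≤ A' := by
    have hne0 : F.eval p r ≠ 0 := fun h => by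
      obtain ⟨hp, hr⟩ := han p r h
      rw [hp, hr] at hdet
      omega
    have h1 : (1 : ℝ) ≤ ((F.eval p r : ℤ) : ℝ) ^ 2 := by
      rw [← sq_abs]
      exact one_le_pow₀ (by exact_mod_cast Int.one_le_abs hne0)
    have h2 : ((F.eval p r : ℤ) : ℝ) ^ 2 ≤ A' ^ 4 := by
      have hF1 : (F.eval p r : ℂ) = F.a * ∏ i, ((p : ℂ) - θ i * r) := by
        simp only [eval, Fin.prod_univ_four]; rw [hb, hc, hd, he]; ring
      have hc' : ((F.eval p r : ℤ) : ℂ) = F.eval (p : ℂ) (r : ℂ) := by simp [eval]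
      rw [← hc'] at hF1
      have h' := congrArg Complex.normSq hF1
      rw [map_mul, map_prod, Complex.normSq_intCast, Complex.normSq_intCast] at h'
      rw [sq, h', show (F.a : ℝ) * F.a = aR ^ 2 by rw [haR, sq_abs, sq], ← hwprod,
        ← Finset.prod_mul_distrib, show A' ^ 4 = ∏ _i : Fin 4, A' by simp]
      refine Finset.prod_le_prod (fun i _ => mul_nonneg (hw0 i).le (Complex.normSq_nonneg _))
        fun i _ => ?_
      rw [hA']
      have := hQ (p : ℝ) (r : ℝ)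
      push_cast at this
      rw [← this]
      exact Finset.single_le_sum (f := fun i => w i * Complex.normSq ((p : ℂ) - θ i * r))
        (fun i _ => mul_nonneg (hw0 i).le (Complex.normSq_nonneg _)) (Finset.mem_univ i)
    by_contra hh
    rw [not_le] at hh
    have := pow_lt_one₀ hA'0 hh (show 4 ≠ 0 by norm_num)
    linarith
  have hAC : A' * C' ≤ 8 * M := by
    have hu : τ.re ^ 2 ≤ 1 / 4 := (sq_abs _).symm.trans_le
      ((pow_le_pow_left₀ (abs_nonneg _) hre 2).trans (by norm_num))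
    have hn : Complex.normSq τ = τ.re ^ 2 + τ.im ^ 2 := by rw [Complex.normSq_apply, sq, sq]
    have hτ : Complex.normSq τ ≤ 4 / 3 * τ.im ^ 2 := by linarith
    have h4 : A' * C' ≤ 4 / 3 * (A' * τ.im) ^ 2 := by
      rw [hC'eq, mul_pow]
      have := mul_le_mul_of_nonneg_left hτ (mul_nonneg hA'0 hA'0)
      linarith
    rw [hA'v, hsq] at h4
    linarith
  have hC'A' : A' ≤ C' := by rw [hC'eq]; exact le_mul_of_one_le_right hA'0 hnorm
  have hC'8 : C' ≤ 8 * M := (le_mul_of_one_le_left (hA'0.trans hC'A') hA'1).trans hAC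
  have hN : ∀ x y : ℤ, x ^ 2 + y ^ 2 ≤ 5 →
      |G.eval x y| ≤ 14400 * (1 + 3 * |F.invI| + |F.invJ|) ^ 2 := by
    intro x y hxy
    have h5 : (x : ℝ) ^ 2 + (y : ℝ) ^ 2 ≤ 5 := by exact_mod_cast hxy
    have h := hbound x y
    have h' : ((G.eval x y : ℤ) : ℝ) ^ 2 ≤ (14400 * M ^ 2) ^ 2 := by
      refine h.trans ?_
      rw [← mul_pow]
      calc (((x : ℝ) ^ 2 + (y : ℝ) ^ 2) * (A' + C')) ^ 4 ≤ (5 * (16 * M)) ^ 4 :=
            pow_le_pow_left₀ (mul_nonneg (by positivity) (by linarith))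
              (mul_le_mul h5 (by linarith) (by linarith) (by norm_num)) 4
        _ ≤ _ := by
          have := pow_nonneg (zero_le_one.trans hM1) 4
          ring_nf
          linarith
    have h'' := abs_le_of_sq_le_sq h' (by positivity)
    rw [hMdef] at h''
    exact_mod_cast h''
  exact abs_coeff_le (hN 0 1 (by norm_num)) (hN 1 1 (by norm_num)) (hN (-1) 1 (by norm_num))
    (hN 2 1 (by norm_num)) (hN 1 0 (by norm_num))

end QuarticForm

end FA.SiegelPoints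

end
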