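import Fermat.Agent.SiegelPoints.Classes
import Mathlib.AlgebraicGeometry.EllipticCurve.Weierstrass
import Mathlib.Data.Nat.Factorization.Basic

/-!
# Siegel's theorem on integral points

For a point `(X / d², Y / d³)` on `y² = x³ + A x + B` some integral quartic form of invariants
`-48 A`, `-1728 B` takes the value `d²` at `(1, 0)` with Hessian `48 X` there, so `x` is one
forty-eighth of the quotient of Hessian and value at a solution of one of finitely many Thue–Mahler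
equations.
-/

set_option autoImplicit false

noncomputable section

namespace FA.SiegelPoints

open FA.ThueMahler

/-- Finitely many `S`-integral points on a short Weierstrass curve. -/
theorem finite_short (S : Finset ℕ) {A B : ℤ} (h : 4 * A ^ 3 + 27 * B ^ 2 ≠ 0) :
    {x : ℚ | (∃ y : ℚ, y ^ 2 = x ^ 3 + A * x + B) ∧
      ∀ q : ℕ, q.Prime → q ∣ x.den → q ∈ S}.Finite := by
  classical
  have hIJ : 4 * (-48 * A) ^ 3 - (-1728 * B) ^ 2 ≠ 0 := by
    intro h0
    exact h (mul_left_cancel₀ (show (-110592 : ℤ) ≠ 0 by norm_num) (by linear_combination h0))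
  obtain ⟨R, hRfin, hR⟩ := QuarticForm.exists_representatives hIJ
  refine ((hRfin.subset (s := R) (t := {G ∈ R | G.Nondegenerate}) fun G hG => hG.1).biUnion
    fun G hG => (QuarticForm.finite_values S hG.2).image fun t : ℤ × ℤ =>
      ((G.hess t.1 t.2 : ℤ) : ℚ) / (48 * ((G.eval t.1 t.2 : ℤ) : ℚ))).subset ?_
  rintro x ⟨⟨y, hxy⟩, hden⟩
  have e : y.num ^ 2 * (x.den : ℤ) ^ 3 =
      (x.num ^ 3 + (A * x.num + B * (x.den : ℤ)) * (x.den : ℤ) ^ 2) * (y.den : ℤ) ^ 2 := by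
    have hxd : (x.den : ℚ) ≠ 0 := by exact_mod_cast x.den_nz
    have hyd : (y.den : ℚ) ≠ 0 := by exact_mod_cast y.den_nz
    rw [← x.num_div_den, ← y.num_div_den] at hxy
    field_simp at hxy
    exact_mod_cast (by linear_combination hxy : (y.num : ℚ) ^ 2 * (x.den : ℚ) ^ 3 =
      ((x.num : ℚ) ^ 3 + (A * x.num + B * (x.den : ℚ)) * (x.den : ℚ) ^ 2) * (y.den : ℚ) ^ 2)
  have hpow : x.den ^ 3 = y.den ^ 2 := by
    have h1 : IsCoprime ((x.den : ℤ) ^ 3)
        (x.num ^ 3 + (A * x.num + B * (x.den : ℤ)) * (x.den : ℤ) ^ 2) := by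
      refine IsCoprime.pow_left ?_
      rw [show x.num ^ 3 + (A * x.num + B * (x.den : ℤ)) * (x.den : ℤ) ^ 2 =
        x.num ^ 3 + (x.den : ℤ) * ((A * x.num + B * (x.den : ℤ)) * x.den) by ring]
      exact ((Rat.isCoprime_num_den x).symm.pow_right).add_mul_left_right _
    have h2 : IsCoprime ((y.den : ℤ) ^ 2) (y.num ^ 2) := (Rat.isCoprime_num_den y).symm.pow
    refine Nat.dvd_antisymm (Int.natCast_dvd_natCast.1 ?_) (Int.natCast_dvd_natCast.1 ?_) <;>
      push_cast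
    · exact h1.dvd_of_dvd_mul_left ⟨y.num ^ 2, by linarith⟩
    · exact h2.dvd_of_dvd_mul_left
        ⟨x.num ^ 3 + (A * x.num + B * (x.den : ℤ)) * (x.den : ℤ) ^ 2, by linarith⟩
  obtain ⟨d, hxd, hyd⟩ := Nat.exists_eq_pow_of_exponent_coprime_of_pow_eq_pow
    (by decide : Nat.Coprime 3 2) hpow
  have hd0 : (d : ℤ) ≠ 0 := by
    intro h; exact x.den_nz (by rw [hxd]; simp [Int.natCast_eq_zero.1 h])
  set X := x.num with hX
  set Y := y.num with hY
  have hYX : Y ^ 2 = X ^ 3 + A * X * (d : ℤ) ^ 4 + B * (d : ℤ) ^ 6 := by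
    rw [hxd, hyd] at e
    push_cast at e
    exact mul_right_cancel₀ (pow_ne_zero 6 hd0) (by linear_combination e)
  have hdX : IsCoprime X ((d : ℤ) ^ 6) := by
    have h := Rat.isCoprime_num_den x
    rw [hxd, Nat.cast_pow] at h
    simpa [← pow_mul] using h.pow_right (n := 3)
  obtain ⟨u, v, huv⟩ := hdX
  set D := (d : ℤ) with hDdef
  set β := Y * u with hβ
  set k₁ := -(X ^ 2 * v) - A * D ^ 4 * v + B * u with hk₁
  set g := u * A + u * D ^ 2 * k₁ - X * v * D ^ 2 with hg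
  set k₂ := X * u * k₁ - X ^ 2 * v - A * D ^ 4 * v with hk₂
  have hYu : Y ^ 2 * u = X ^ 2 + A * D ^ 4 + D ^ 6 * k₁ := by
    rw [hk₁]; linear_combination u * hYX + (X ^ 2 + A * D ^ 4) * huv
  have hε : β ^ 2 - X = D ^ 4 * g := by
    rw [hβ, hg]; linear_combination u * hYu + X * huv
  have hXε : X * (β ^ 2 - X) = A * D ^ 4 + D ^ 6 * k₂ := by
    rw [hε, hg, hk₂]; linear_combination A * D ^ 4 * huv
  set F : QuarticForm := ⟨D ^ 2, 4 * β, 6 * (D ^ 2 * g), 4 * (β * g + 2 * Y * v * D ^ 2),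
    D ^ 2 * g ^ 2 + 8 * k₁ - 4 * k₂⟩ with hF
  have hI : F.invI = -48 * A := by
    simp only [hF, QuarticForm.invI]
    linear_combination -48 * g * hε - 96 * v * D ^ 2 * Y * hβ - 96 * v * D ^ 2 * hYu -
      (96 * D ^ 2 * k₁ + 48 * A) * huv - 48 * X * hg - 48 * D ^ 2 * hk₂
  have hA : 3 * F.b ^ 2 - 8 * F.a * F.c = 48 * X := by
    simp only [hF]; linear_combination 48 * hε
  have hJ : F.invJ = -1728 * B := by
    have hr : F.b ^ 3 + 8 * F.a ^ 2 * F.d - 4 * F.a * F.b * F.c = 64 * Y := by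
      simp only [hF]; linear_combination 64 * β * hε + 64 * X * hβ + 64 * Y * huv
    have hs := F.syzygy
    rw [hA, hr, hI, show F.a = D ^ 2 from rfl] at hs
    refine mul_left_cancel₀ (pow_ne_zero 6 hd0) ?_
    linarith [show (D ^ 2) ^ 3 * F.invJ = D ^ 6 * F.invJ by ring,
      show (D : ℤ) ^ 6 * (-1728 * B) = -1728 * (Y ^ 2 - X ^ 3 - A * X * D ^ 4) by
        rw [hYX]; ring]
  obtain ⟨p, q, r, s, hdet, hm⟩ := hR F hI hJ
  set G := F.act p q r s with hG
  have hGn : G.Nondegenerate := by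
    rw [QuarticForm.Nondegenerate, hG, QuarticForm.invI_act, QuarticForm.invJ_act, hdet, hI, hJ]
    simpa using hIJ
  have h10 : p * s + q * -r = 1 := by linear_combination hdet
  have h01 : r * s + s * -r = 0 := by ring
  have heval : G.eval s (-r) = D ^ 2 := by
    rw [hG, QuarticForm.eval_act]
    simp only [Int.cast_id]
    rw [h10, h01]
    simp [hF, QuarticForm.eval]
  have hhess : G.hess s (-r) = 48 * X := by
    rw [hG, QuarticForm.hess_act]
    simp only [Int.cast_id]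
    rw [hdet, h10, h01]
    simp [hF, QuarticForm.hess]
    linear_combination 48 * hε
  refine Set.mem_biUnion (x := G) ⟨hm, hGn⟩ ⟨(s, -r), ⟨⟨p, q, h10⟩, ?_⟩, ?_⟩
  · show SUnit S (G.eval s (-r))
    rw [heval]
    refine ⟨pow_ne_zero _ hd0, fun l hl hld => hden l hl ?_⟩
    rw [hxd]
    exact dvd_pow (Int.natCast_dvd_natCast.1 ((Nat.prime_iff_prime_int.1 hl).dvd_of_dvd_pow hld))
      two_ne_zero
  · show ((G.hess s (-r) : ℤ) : ℚ) / (48 * ((G.eval s (-r) : ℤ) : ℚ)) = x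
    rw [heval, hhess]
    conv_rhs => rw [← x.num_div_den, hxd]
    push_cast
    rw [hX, hDdef]
    push_cast
    field_simp

/-- **Siegel's theorem**: an elliptic curve has finitely many `S`-integral points. -/
theorem finite_weierstrass (S : Finset ℕ) {W : WeierstrassCurve ℤ} (hW : W.Δ ≠ 0) :
    {p : ℚ × ℚ | p.2 ^ 2 + W.a₁ * p.1 * p.2 + W.a₃ * p.2 =
        p.1 ^ 3 + W.a₂ * p.1 ^ 2 + W.a₄ * p.1 + W.a₆ ∧
      ∀ q : ℕ, q.Prime → q ∣ p.1.den → q ∈ S}.Finite := by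
  classical
  have hne : 4 * (-27 * W.c₄) ^ 3 + 27 * (-54 * W.c₆) ^ 2 ≠ 0 := fun h => by
    have h' : (78732 * 1728 : ℤ) * W.Δ = 0 := by linear_combination -h + 78732 * W.c_relation
    exact hW ((mul_eq_zero.1 h').resolve_left (by norm_num))
  have hx := finite_short S hne
  set T : Set ℚ := (fun x : ℚ => (x - 3 * (W.b₂ : ℚ)) / 36) '' {x : ℚ |
    (∃ y : ℚ, y ^ 2 = x ^ 3 + ((-27 * W.c₄ : ℤ) : ℚ) * x + ((-54 * W.c₆ : ℤ) : ℚ)) ∧
      ∀ q : ℕ, q.Prime → q ∣ x.den → q ∈ S} with hT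
  refine Set.Finite.subset ((hx.image _).biUnion (s := T) fun x _ =>
    (show {p : ℚ × ℚ | p.1 = x ∧ p.2 ^ 2 + W.a₁ * p.1 * p.2 + W.a₃ * p.2 =
        p.1 ^ 3 + W.a₂ * p.1 ^ 2 + W.a₄ * p.1 + W.a₆}.Finite from ?_)) ?_
  · by_cases h : ∃ y : ℚ, y ^ 2 + W.a₁ * x * y + W.a₃ * y =
        x ^ 3 + W.a₂ * x ^ 2 + W.a₄ * x + W.a₆
    · obtain ⟨y, hy⟩ := h
      refine (Set.toFinite {(x, y), (x, -y - W.a₁ * x - W.a₃)}).subset ?_
      rintro ⟨x', y'⟩ ⟨rfl, h2⟩
      have : (y' - y) * (y' - (-y - W.a₁ * x' - W.a₃)) = 0 := by linear_combination h2 - hy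
      rcases mul_eq_zero.1 this with h | h
      · exact Or.inl (Prod.ext rfl (sub_eq_zero.1 h))
      · exact Or.inr (Prod.ext rfl (sub_eq_zero.1 h))
    · refine Set.finite_empty.subset ?_
      rintro ⟨x', y'⟩ ⟨rfl, h2⟩
      exact absurd ⟨y', h2⟩ h
  rintro ⟨x, y⟩ ⟨hxy, hden⟩
  refine Set.mem_biUnion (x := x) ⟨36 * x + 3 * W.b₂, ⟨⟨108 * (2 * y + W.a₁ * x + W.a₃), ?_⟩,
    fun q hq hd => hden q hq (hd.trans ?_)⟩, by ring⟩ ⟨rfl, hxy⟩
  · simp only [WeierstrassCurve.c₄, WeierstrassCurve.c₆, WeierstrassCurve.b₂, WeierstrassCurve.b₄,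
      WeierstrassCurve.b₆] at hxy ⊢
    push_cast
    linear_combination 46656 * hxy
  · rw [← Int.natCast_dvd_natCast]
    have e : 36 * x + 3 * (W.b₂ : ℚ) =
        ((36 * x.num + 3 * W.b₂ * x.den : ℤ) : ℚ) / ((x.den : ℤ) : ℚ) := by
      conv_lhs => rw [← x.num_div_den]
      have : (x.den : ℚ) ≠ 0 := by exact_mod_cast x.den_nz
      push_cast
      field_simp
    rw [e, ← Rat.divInt_eq_div]
    exact Rat.den_dvd _ _

end FA.SiegelPoints

end
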